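/-
M59 / Sink B (helper15), pure algebra, prefix `m59sb_`: THE FINITE-MODULE EIGENVECTOR LEMMA
(finding #5186 (1), accepted by the referee in #5188 (5)).

`m59sb_exists_ker_of_image` : `H` a FINITE abelian group with commuting endomorphisms `S i`
(think `T_ℓ - a_ℓ` and `p`), `φ : H →+ J` intertwining `S i` with endomorphisms `SJ i` of `J`;
if `φ h = z ≠ 0` and `z` is killed by all `SJ i`, then `H` contains a NONZERO element killed by all
`S i`.  (Strong induction on the cardinality of the stable subgroups; Mathlib only.)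
-/
import Mathlib

set_option autoImplicit false

namespace Fermat.Agent.M59

variable {Λ H : Type*} [AddCommGroup H]

theorem m59sb_end_pow_add_apply (S : AddMonoid.End H) (k l : ℕ) (x : H) :
    (S ^ (k + l)) x = (S ^ k) ((S ^ l) x) := by
  rw [pow_add]; rfl

theorem m59sb_end_pow_succ_apply (S : AddMonoid.End H) (k : ℕ) (x : H) :
    (S ^ (k + 1)) x = (S ^ k) (S x) := by
  rw [m59sb_end_pow_add_apply, pow_one]

theorem m59sb_end_pow_succ_apply' (S : AddMonoid.End H) (k : ℕ) (x : H) :
    (S ^ (k + 1)) x = S ((S ^ k) x) := by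
  rw [add_comm, m59sb_end_pow_add_apply, pow_one]

theorem m59sb_end_pow_comm_apply {S T : AddMonoid.End H} (h : Commute S T) (k : ℕ) (x : H) :
    (S ^ k) (T x) = T ((S ^ k) x) := by
  have := (h.pow_left k).eq
  exact DFunLike.congr_fun this x

/-- the generalised kernel of an endomorphism -/
def m59sb_genKer (S : AddMonoid.End H) : AddSubgroup H where
  carrier := {x | ∃ k : ℕ, (S ^ k) x = 0}
  zero_mem' := ⟨0, map_zero _⟩
  add_mem' := by
    rintro x y ⟨k, hk⟩ ⟨l, hl⟩
    refine ⟨l + k, ?_⟩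
    rw [map_add, m59sb_end_pow_add_apply, hk, map_zero, add_comm l k, m59sb_end_pow_add_apply, hl, map_zero,
      add_zero]
  neg_mem' := by
    rintro x ⟨k, hk⟩
    exact ⟨k, by rw [map_neg, hk, neg_zero]⟩

theorem m59sb_mem_genKer {S : AddMonoid.End H} {x : H} : x ∈ m59sb_genKer S ↔ ∃ k : ℕ, (S ^ k) x = 0 := Iff.rfl

/-- the kernel of an endomorphism -/
def m59sb_endKer (S : AddMonoid.End H) : AddSubgroup H where
  carrier := {x | S x = 0}
  zero_mem' := map_zero _
  add_mem' := by
    intro x y hx hy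
    show S (x + y) = 0
    rw [map_add, show S x = 0 from hx, show S y = 0 from hy, add_zero]
  neg_mem' := by
    intro x hx
    show S (-x) = 0
    rw [map_neg, show S x = 0 from hx, neg_zero]

theorem m59sb_mem_endKer {S : AddMonoid.End H} {x : H} : x ∈ m59sb_endKer S ↔ S x = 0 := Iff.rfl

theorem m59sb_card_lt_of_ssubset [Finite H] {U' U : AddSubgroup H} (hle : U' ≤ U) {x : H} (hxU : x ∈ U)
    (hxU' : x ∉ U') : Nat.card U' < Nat.card U := by
  have hss : (U' : Set H) ⊂ (U : Set H) := ⟨hle, fun h => hxU' (h hxU)⟩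
  have h1 := Set.ncard_lt_ncard hss (Set.toFinite _)
  exact h1

section Finite

variable [Finite H]

/-- commuting, locally nilpotent operators on a nonzero stable subgroup of a finite group have a
common nonzero kernel vector -/
theorem m59sb_exists_common_ker (S : Λ → AddMonoid.End H) (hc : ∀ i j, Commute (S i) (S j)) :
    ∀ (n : ℕ) (U : AddSubgroup H), Nat.card U = n → U ≠ ⊥ → (∀ i, ∀ x ∈ U, S i x ∈ U) →
      (∀ i, ∀ x ∈ U, ∃ k : ℕ, ((S i) ^ k) x = 0) → ∃ w ∈ U, w ≠ 0 ∧ ∀ i, S i w = 0 := by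
  intro n
  induction n using Nat.strong_induction_on with
  | _ n ih =>
    intro U hcard hU hst hnil
    by_cases hall : ∀ i, ∀ x ∈ U, S i x = 0
    · obtain ⟨⟨w, hwU⟩, hw0⟩ := (AddSubgroup.ne_bot_iff_exists_ne_zero).1 hU
      refine ⟨w, hwU, fun h => hw0 (Subtype.ext h), fun i => hall i w hwU⟩
    · push Not at hall
      obtain ⟨i₀, x₀, hx₀U, hx₀⟩ := hall
      -- the smaller subgroup
      let U' : AddSubgroup H := U ⊓ m59sb_endKer (S i₀)
      have hU'le : U' ≤ U := inf_le_left
      have hx₀U' : x₀ ∉ U' := fun h => hx₀ (m59sb_mem_endKer.1 h.2)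
      have hlt : Nat.card U' < n := by
        rw [← hcard]
        exact m59sb_card_lt_of_ssubset hU'le hx₀U hx₀U' 
      -- `U'` is nonzero: the last nonzero iterate of `x₀`
      have hU' : U' ≠ ⊥ := by
        obtain ⟨k, hk⟩ := hnil i₀ x₀ hx₀U
        -- minimal k
        classical
        have hex : ∃ k : ℕ, ((S i₀) ^ k) x₀ = 0 := ⟨k, hk⟩
        let k₀ := Nat.find hex
        have hk₀ : ((S i₀) ^ k₀) x₀ = 0 := Nat.find_spec hex
        have hk₀pos : k₀ ≠ 0 := by
          intro h0
          rw [h0, pow_zero] at hk₀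
          apply hx₀
          have : x₀ = 0 := hk₀
          rw [this, map_zero]
        obtain ⟨j, hj⟩ := Nat.exists_eq_succ_of_ne_zero hk₀pos
        have hjlt : j < k₀ := by omega
        have hjne : ((S i₀) ^ j) x₀ ≠ 0 := Nat.find_min hex hjlt
        have hjU : ∀ m : ℕ, ((S i₀) ^ m) x₀ ∈ U := by
          intro m
          induction m with
          | zero => simpa using hx₀U
          | succ m ihm => rw [m59sb_end_pow_succ_apply']; exact hst i₀ _ ihm
        intro hbot
        apply hjne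
        have hmem : ((S i₀) ^ j) x₀ ∈ U' := by
          refine ⟨hjU j, m59sb_mem_endKer.2 ?_⟩
          have : (S i₀) (((S i₀) ^ j) x₀) = ((S i₀) ^ k₀) x₀ := by
            rw [hj, m59sb_end_pow_succ_apply']
          exact this.trans hk₀
        rw [hbot] at hmem
        exact (AddSubgroup.mem_bot).1 hmem
      have hst' : ∀ i, ∀ x ∈ U', S i x ∈ U' := by
        intro i x hx
        refine ⟨hst i x hx.1, m59sb_mem_endKer.2 ?_⟩
        have h1 : (S i₀) (S i x) = S i (S i₀ x) := DFunLike.congr_fun (hc i₀ i).eq x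
        rw [h1, m59sb_mem_endKer.1 hx.2, map_zero]
      obtain ⟨w, hwU', hw0, hw⟩ := ih (Nat.card U') hlt U' rfl hU' hst'
        (fun i x hx => hnil i x hx.1)
      exact ⟨w, hwU'.1, hw0, hw⟩

/-- **the finite-module eigenvector lemma**: `H` finite with commuting operators `S i`
(think `T_ℓ - a_ℓ` and `p`), `φ : H → J` intertwining `S i` with operators `SJ i` of `J`; if
`φ h ≠ 0` is killed by all `SJ i`, then `H` contains a nonzero vector killed by all `S i`. -/
theorem m59sb_exists_ker_of_image {J : Type*} [AddCommGroup J] (S : Λ → AddMonoid.End H)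
    (hc : ∀ i j, Commute (S i) (S j)) (SJ : Λ → AddMonoid.End J) (φ : H →+ J)
    (hφ : ∀ i x, φ (S i x) = SJ i (φ x)) (z : J) (hz0 : z ≠ 0) (hz : ∀ i, SJ i z = 0) :
    ∀ (n : ℕ) (U : AddSubgroup H), Nat.card U = n → (∀ i, ∀ x ∈ U, S i x ∈ U) →
      (∃ h ∈ U, φ h = z) → ∃ w ∈ U, w ≠ 0 ∧ ∀ i, S i w = 0 := by
  intro n
  induction n using Nat.strong_induction_on with
  | _ n ih =>
    intro U hcard hst ⟨h, hhU, hhz⟩
    have hU : U ≠ ⊥ := by
      intro hbot
      rw [hbot, AddSubgroup.mem_bot] at hhU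
      rw [hhU, map_zero] at hhz
      exact hz0 hhz.symm
    by_cases hnil : ∀ i, ∀ x ∈ U, ∃ k : ℕ, ((S i) ^ k) x = 0
    · exact m59sb_exists_common_ker S hc n U hcard hU hst hnil
    · push Not at hnil
      obtain ⟨i₀, x₀, hx₀U, hx₀⟩ := hnil
      let U' : AddSubgroup H := U ⊓ m59sb_genKer (S i₀)
      have hx₀U' : x₀ ∉ U' := fun hmem => by
        obtain ⟨k, hk⟩ := m59sb_mem_genKer.1 hmem.2
        exact hx₀ k hk
      have hlt : Nat.card U' < n := by
        rw [← hcard]
        exact m59sb_card_lt_of_ssubset inf_le_left hx₀U hx₀U' 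
      have hst' : ∀ i, ∀ x ∈ U', S i x ∈ U' := by
        intro i x hx
        refine ⟨hst i x hx.1, ?_⟩
        obtain ⟨k, hk⟩ := m59sb_mem_genKer.1 hx.2
        refine m59sb_mem_genKer.2 ⟨k, ?_⟩
        rw [m59sb_end_pow_comm_apply (hc i₀ i), hk, map_zero]
      -- iterates of `h` under `S i₀`
      have hitU : ∀ m : ℕ, ((S i₀) ^ m) h ∈ U := by
        intro m
        induction m with
        | zero => simpa using hhU
        | succ m ihm => rw [m59sb_end_pow_succ_apply']; exact hst i₀ _ ihm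
      have hitφ : ∀ m : ℕ, φ (((S i₀) ^ (m + 1)) h) = 0 := by
        intro m
        induction m with
        | zero => rw [zero_add, pow_one, hφ, hhz, hz]
        | succ m ihm => rw [m59sb_end_pow_succ_apply', hφ, ihm, map_zero]
      -- pigeonhole
      obtain ⟨k₁, k₂, hne, heq⟩ :=
        Finite.exists_ne_map_eq_of_infinite (fun m : ℕ => ((S i₀) ^ m) h)
      -- wlog k₁ < k₂
      have key : ∀ a b : ℕ, a < b → ((S i₀) ^ a) h = ((S i₀) ^ b) h →
          ∃ h' ∈ U', φ h' = z := by
        intro a b hab hEq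
        obtain ⟨d, rfl⟩ : ∃ d, b = a + (d + 1) := ⟨b - a - 1, by omega⟩
        refine ⟨h - ((S i₀) ^ (d + 1)) h, ⟨U.sub_mem hhU (hitU _), ?_⟩, ?_⟩
        · refine m59sb_mem_genKer.2 ⟨a, ?_⟩
          rw [map_sub, ← m59sb_end_pow_add_apply, hEq, sub_self]
        · rw [map_sub, hitφ, sub_zero, hhz]
      have hex : ∃ h' ∈ U', φ h' = z := by
        rcases Nat.lt_or_gt_of_ne hne with hlt' | hgt'
        · exact key k₁ k₂ hlt' heq
        · exact key k₂ k₁ hgt' heq.symm
      exact
        let ⟨w, hwU', hw0, hw⟩ := ih (Nat.card U') hlt U' rfl hst' hex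
        ⟨w, hwU'.1, hw0, hw⟩

end Finite

end Fermat.Agent.M59
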