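/-
M59 / Sink B (helper15), pure algebra, prefix `m59sb_`: ABSTRACT FORM OF LEMMA 2 OF FINDING #5163
([GRO] on the toric part, by counting; no construction of functions), accepted by the referee in
#5168 / #5188.  Written against main's Tate module `tm_T` (JT3/Tate/Module.lean).
-/
import Mathlib
import Fermat.Agent.JT3.Tate.Module

set_option autoImplicit false

namespace Fermat.Agent.M59

open Fermat.Agent.JT3

/-- **Lemma 2 of #5163, abstract form.**  `J` the torsion points, `JI` the inertia-fixed ones,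
`Tor n ⊆ J[p^n] ∩ JI` the toric classes with toric datum `τ : J → A` (only its values on the `Tor n`
matter), EXACTLY injective on `Tor (c+1)`.  If every element of `p^c • T_p A` is the toric datum of
a compatible system of toric classes (`hidx`: the finite-index statement of Lemma 1 + [PULL]) and
`A` is `p`-divisible (`hA`), then every `z ∈ Tor 1` is the first component of an inertia-fixed
element of the Tate module of `J`. -/
theorem m59sb_gro_toric {J A : Type*} [AddCommGroup J] [AddCommGroup A] (p : ℕ) [Fact p.Prime]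
    (JI : AddSubgroup J) (Tor : ℕ → Set J) (hTorI : ∀ n, ∀ z ∈ Tor n, z ∈ JI)
    (τ : J → A) (c : ℕ)
    (hinj : ∀ a ∈ Tor (c + 1), ∀ b ∈ Tor (c + 1), τ a = τ b → a = b)
    (hmono : ∀ z ∈ Tor 1, z ∈ Tor (c + 1))
    (htor1 : ∀ z ∈ Tor 1, p • z = 0)
    (hτp : ∀ z ∈ Tor 1, p • τ z = 0)
    (hA : ∀ a : A, p • a = 0 → ∃ h : tm_T A p, h.1 1 = a)
    (hidx : ∀ h : tm_T A p, ∃ y : tm_T J p, (∀ n, y.1 n ∈ Tor n) ∧
      ∀ n, τ (y.1 n) = p ^ c • h.1 n)
    (z : J) (hz : z ∈ Tor 1) :
    ∃ y0 : tm_T J p, (∀ n, y0.1 n ∈ JI) ∧ y0.1 1 = z := by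
  obtain ⟨h, hh⟩ := hA (τ z) (hτp z hz)
  obtain ⟨y, hyT, hyτ⟩ := hidx h
  -- the toric datum of `y (c+1)` is that of `z`
  have h1 : τ (y.1 (c + 1)) = τ z := by
    rw [hyτ (c + 1), add_comm c 1, tm_pow_smul h 1 c, hh]
  have h2 : y.1 (c + 1) = z := hinj _ (hyT (c + 1)) _ (hmono z hz) h1
  -- `y c = 0`
  have h3 : y.1 c = 0 := by
    rw [← tm_compat y c, h2, htor1 z hz]
  -- the shifted sequence
  refine ⟨⟨fun n => y.1 (n + c), fun n => ⟨?_, ?_⟩⟩, fun n => hTorI _ _ (hyT (n + c)), ?_⟩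
  · show p ^ n • y.1 (n + c) = 0
    rw [add_comm n c, tm_pow_smul y c n, h3]
  · show p • y.1 (n + 1 + c) = y.1 (n + c)
    have : n + 1 + c = (n + c) + 1 := by omega
    rw [this, tm_compat]
  · show y.1 (1 + c) = z
    rw [add_comm 1 c, h2]

end Fermat.Agent.M59
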