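/-
M59 / Sink B (helper15), pure algebra, prefix `m59sb_`: ABSTRACT FORM OF LEMMA 1 OF FINDING #5163
(rank count on the toric part at level `N' q`), accepted by the referee in #5168.

* `m59sb_rank_Y`  : `T₁`, `T₀` finite over a noetherian domain, `T₀` free, `a b : T₁ → T₀`, `N` an
  endomorphism of `T₁` with `N² = 0`, `a N = b N = 0`; then
  `rank T₁ ≤ 2 rank (ker a ⊓ ker b ⊓ ker N) + 2 rank T₀`;
* `m59sb_exists_pow_smul_mem` : over `ℤ_[p]`, an injective linear map `τ : Y → A` into a finite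
  module with `rank A ≤ rank Y` has `p ^ c • A ⊆ range τ` for some `c`;
* `m59sb_lemma1` : the two together.
-/
import Mathlib

set_option autoImplicit false

namespace Fermat.Agent.M59

open Module

section General

variable {R : Type*} [CommRing R] [IsDomain R]

/-- rank-nullity as an inequality, over a domain. -/
theorem m59sb_finrank_le_ker_add {M N : Type*} [AddCommGroup M] [Module R M] [AddCommGroup N]
    [Module R N] [Module.Finite R M] [Module.Finite R N] (f : M →ₗ[R] N) :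
    finrank R M ≤ finrank R (LinearMap.ker f) + finrank R N := by
  have h := (LinearMap.ker f).finrank_quotient_add_finrank
  rw [LinearEquiv.finrank_eq f.quotKerEquivRange] at h
  have h2 : finrank R (LinearMap.range f) ≤ finrank R N := Submodule.finrank_le _
  omega

/-- a map `g : K → M` whose image and kernel both inject into a finite module `Y`:
`rank K ≤ 2 rank Y`. -/
theorem m59sb_finrank_le_two_mul {K M : Type*} [AddCommGroup K] [Module R K] [AddCommGroup M]
    [Module R M] [Module.Finite R K] [Module.Finite R M] (g : K →ₗ[R] M) (Y : Submodule R M)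
    [Module.Finite R Y] (hrange : LinearMap.range g ≤ Y)
    (j : LinearMap.ker g →ₗ[R] Y) (hj : Function.Injective j) :
    finrank R K ≤ 2 * finrank R Y := by
  have h := (LinearMap.ker g).finrank_quotient_add_finrank
  rw [LinearEquiv.finrank_eq g.quotKerEquivRange] at h
  have h1 : finrank R (LinearMap.range g) ≤ finrank R Y := Submodule.finrank_mono hrange
  have h2 : finrank R (LinearMap.ker g) ≤ finrank R Y :=
    LinearMap.finrank_le_finrank_of_injective hj
  omega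

variable [IsNoetherianRing R]

/-- **Rank count.** `T₁`, `T₀` finite, `T₀` free, `a b : T₁ → T₀`, `N` an endomorphism of `T₁` with
`N² = 0`, `a N = b N = 0` (`N = σ - 1`, inertia trivial on `T₀`).  Then the common kernel
`Y = ker a ⊓ ker b ⊓ ker N` has rank at least `(rank T₁ - 2 rank T₀) / 2`. -/
theorem m59sb_rank_Y {T₁ T₀ : Type*} [AddCommGroup T₁] [Module R T₁] [AddCommGroup T₀]
    [Module R T₀] [Module.Finite R T₁] [Module.Finite R T₀] [Module.Free R T₀]
    (a b : T₁ →ₗ[R] T₀) (N : T₁ →ₗ[R] T₁)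
    (hNN : ∀ x, N (N x) = 0) (haN : ∀ x, a (N x) = 0) (hbN : ∀ x, b (N x) = 0) :
    finrank R T₁ ≤
      2 * finrank R ↥(LinearMap.ker a ⊓ LinearMap.ker b ⊓ LinearMap.ker N) +
        2 * finrank R T₀ := by
  have h1 : finrank R T₁ ≤ finrank R (LinearMap.ker (a.prod b)) + finrank R (T₀ × T₀) :=
    m59sb_finrank_le_ker_add (a.prod b)
  have h2 : finrank R (T₀ × T₀) = 2 * finrank R T₀ := by rw [Module.finrank_prod]; ring
  have hK : ∀ x : LinearMap.ker (a.prod b), a x.1 = 0 ∧ b x.1 = 0 := by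
    intro x
    have := x.2
    rw [LinearMap.mem_ker, LinearMap.prod_apply] at this
    exact Prod.mk_eq_zero.mp this
  have hrange : LinearMap.range (N ∘ₗ (LinearMap.ker (a.prod b)).subtype) ≤
      LinearMap.ker a ⊓ LinearMap.ker b ⊓ LinearMap.ker N := by
    rintro _ ⟨x, rfl⟩
    exact ⟨⟨haN _, hbN _⟩, hNN _⟩
  have hmem : ∀ x : LinearMap.ker (N ∘ₗ (LinearMap.ker (a.prod b)).subtype),
      ((LinearMap.ker (a.prod b)).subtype ∘ₗ
        (LinearMap.ker (N ∘ₗ (LinearMap.ker (a.prod b)).subtype)).subtype) x ∈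
        LinearMap.ker a ⊓ LinearMap.ker b ⊓ LinearMap.ker N := by
    intro x
    exact ⟨⟨(hK x.1).1, (hK x.1).2⟩, x.2⟩
  have hj : Function.Injective (LinearMap.codRestrict
      (LinearMap.ker a ⊓ LinearMap.ker b ⊓ LinearMap.ker N) _ hmem) := by
    intro x y hxy
    have := congrArg Subtype.val hxy
    exact Subtype.ext (Subtype.ext this)
  have h3 := m59sb_finrank_le_two_mul (N ∘ₗ (LinearMap.ker (a.prod b)).subtype)
    (LinearMap.ker a ⊓ LinearMap.ker b ⊓ LinearMap.ker N) hrange _ hj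
  omega

omit [IsNoetherianRing R] in
/-- a full-rank submodule of a finite module over a domain has a quotient killed by
one nonzero scalar. -/
theorem m59sb_exists_smul_mem {Y A : Type*} [AddCommGroup Y] [Module R Y] [AddCommGroup A]
    [Module R A] [Module.Finite R A] (τ : Y →ₗ[R] A) (hτ : Function.Injective τ)
    (hrank : finrank R A ≤ finrank R Y) :
    ∃ r : R, r ≠ 0 ∧ ∀ h : A, ∃ y : Y, τ y = r • h := by
  have h1 : finrank R (LinearMap.range τ) = finrank R Y := LinearMap.finrank_range_of_inj hτ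
  have h2 := (LinearMap.range τ).finrank_quotient_add_finrank
  have h3 : finrank R (A ⧸ LinearMap.range τ) = 0 := by omega
  have h4 : Module.IsTorsion R (A ⧸ LinearMap.range τ) :=
    Module.finrank_eq_zero_iff_isTorsion.mp h3
  obtain ⟨r, hr1, hr2⟩ := Submodule.annihilator_top_inter_nonZeroDivisors h4
  refine ⟨r, nonZeroDivisors.ne_zero hr2, fun h => ?_⟩
  have h5 : r • (Submodule.Quotient.mk h : A ⧸ LinearMap.range τ) = 0 :=
    Submodule.mem_annihilator.mp hr1 _ Submodule.mem_top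
  rw [← Submodule.Quotient.mk_smul, Submodule.Quotient.mk_eq_zero] at h5
  obtain ⟨y, hy⟩ := h5
  exact ⟨y, hy⟩

end General

/-- over `ℤ_[p]` the scalar can be taken to be a power of `p`. -/
theorem m59sb_exists_pow_smul_mem {p : ℕ} [Fact p.Prime] {Y A : Type*} [AddCommGroup Y]
    [Module ℤ_[p] Y] [AddCommGroup A] [Module ℤ_[p] A] [Module.Finite ℤ_[p] A]
    (τ : Y →ₗ[ℤ_[p]] A) (hτ : Function.Injective τ)
    (hrank : finrank ℤ_[p] A ≤ finrank ℤ_[p] Y) :
    ∃ c : ℕ, ∀ h : A, ∃ y : Y, τ y = (p : ℤ_[p]) ^ c • h := by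
  obtain ⟨r, hr0, hr⟩ := m59sb_exists_smul_mem τ hτ hrank
  refine ⟨r.valuation, fun h => ?_⟩
  obtain ⟨y, hy⟩ := hr h
  refine ⟨((PadicInt.unitCoeff hr0)⁻¹ : ℤ_[p]ˣ) • y, ?_⟩
  have hspec := PadicInt.unitCoeff_spec hr0
  rw [Units.smul_def, map_smul, hy, smul_smul]
  congr 1
  calc ((PadicInt.unitCoeff hr0)⁻¹ : ℤ_[p]ˣ) * r
      = ((PadicInt.unitCoeff hr0)⁻¹ : ℤ_[p]ˣ) *
          ((PadicInt.unitCoeff hr0 : ℤ_[p]) * (p : ℤ_[p]) ^ r.valuation) := by rw [← hspec]
    _ = (p : ℤ_[p]) ^ r.valuation := by rw [← mul_assoc, Units.inv_mul, one_mul]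

/-- **Lemma 1 of #5163, abstract form.** -/
theorem m59sb_lemma1 {p : ℕ} [Fact p.Prime] {T₁ T₀ A : Type*} [AddCommGroup T₁] [Module ℤ_[p] T₁]
    [AddCommGroup T₀] [Module ℤ_[p] T₀] [AddCommGroup A] [Module ℤ_[p] A]
    [Module.Finite ℤ_[p] T₁] [Module.Finite ℤ_[p] T₀] [Module.Free ℤ_[p] T₀]
    [Module.Finite ℤ_[p] A]
    (a b : T₁ →ₗ[ℤ_[p]] T₀) (N : T₁ →ₗ[ℤ_[p]] T₁)
    (hNN : ∀ x, N (N x) = 0) (haN : ∀ x, a (N x) = 0) (hbN : ∀ x, b (N x) = 0)
    (s : ℕ) (hA : finrank ℤ_[p] A ≤ s)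
    (hmass : 2 * s + 2 * finrank ℤ_[p] T₀ ≤ finrank ℤ_[p] T₁)
    (τ : ↥(LinearMap.ker a ⊓ LinearMap.ker b ⊓ LinearMap.ker N) →ₗ[ℤ_[p]] A)
    (hτ : Function.Injective τ) :
    ∃ c : ℕ, ∀ h : A, ∃ y : T₁, ∃ hy : y ∈ LinearMap.ker a ⊓ LinearMap.ker b ⊓ LinearMap.ker N,
      τ ⟨y, hy⟩ = (p : ℤ_[p]) ^ c • h := by
  have h1 := m59sb_rank_Y a b N hNN haN hbN
  obtain ⟨c, hc⟩ := m59sb_exists_pow_smul_mem τ hτ (by omega)
  refine ⟨c, fun h => ?_⟩
  obtain ⟨y, hy⟩ := hc h
  exact ⟨y.1, y.2, hy⟩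

end Fermat.Agent.M59

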